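import Fermat.Agent.S55.G.PL0H713

/-!
# S55 layer G, leaf G-PL1 (helper713), part 1 : integers of `L_𝔪` and the prime below a place

* `IsOver S L 𝔪 q` : the place `𝔪` of `L ⊗ ℚ_S` lies over `q ∈ S`; `ofQqAt` the structure map
  `ℚ_q → L_𝔪` for any such `q` (no casts), `mem_intRing_iff_of_isOver`;
* `toLoc_mem_intRing`, `ofQqAt_mem_intRing`, `natCast_mem_nonunits`;
* `toInt S L 𝔪 : 𝓞 L →+* intRing S L 𝔪`;
* `primeBelow S L 𝔪 : HeightOneSpectrum (𝓞 L)`, `mem_primeBelow_iff`, `isAbove_primeBelow`.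
-/

set_option autoImplicit false
set_option linter.unusedSectionVars false
set_option linter.style.haveILetI false

open scoped NumberField TensorProduct
open IsLocalRing IsDedekindDomain

namespace Fermat.Agent.S55.G.PL1H713

open Fermat.Agent.S55.G Fermat.Agent.S55.G.PL0H713 Fermat.Agent.S55.Local

/-- Primes are primes. -/
instance factPrime (q : Nat.Primes) : Fact (Nat.Prime (q : ℕ)) := ⟨q.2⟩

variable (S : Finset Nat.Primes) (L : Type) [Field L] [NumberField L]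

/-! ## Places over a given rational prime -/

/-- The place `𝔪` lies over the rational prime `q ∈ S`. -/
def IsOver (𝔪 : SPlace S L) (q : S) : Prop := LocField.ofQS S 𝔪 (single S q 1) = 1

variable {S L}

lemma isOver_primeOf (𝔪 : SPlace S L) : IsOver S L 𝔪 (primeOf S L 𝔪) :=
  ofQS_single_primeOf S L 𝔪

lemma single_mul_single_of_ne {q q' : S} (h : q ≠ q') (x : Qq q.1) (y : Qq q'.1) :
    single S q x * single S q' y = 0 := by
  refine QS_ext S fun r => ?_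
  rw [map_mul, Pi.mul_apply]
  by_cases hr : r = q
  · subst hr
    rw [single_apply_ne S q' r h, mul_zero]; rfl
  · rw [single_apply_ne S q r hr, zero_mul]; rfl

lemma IsOver.eq {𝔪 : SPlace S L} {q q' : S} (h : IsOver S L 𝔪 q) (h' : IsOver S L 𝔪 q') :
    q = q' := by
  by_contra hne
  have h0 := congrArg (LocField.ofQS S 𝔪) (single_mul_single_of_ne hne (1 : Qq q.1) (1 : Qq q'.1))
  rw [map_mul, h, h', map_zero, mul_one] at h0
  exact one_ne_zero h0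

lemma IsOver.eq_primeOf {𝔪 : SPlace S L} {q : S} (h : IsOver S L 𝔪 q) : q = primeOf S L 𝔪 :=
  h.eq (isOver_primeOf 𝔪)

lemma ofQS_single_of_not_isOver {𝔪 : SPlace S L} {q : S} (h : ¬ IsOver S L 𝔪 q) (x : Qq q.1) :
    LocField.ofQS S 𝔪 (single S q x) = 0 := by
  have h1 : LocField.ofQS S 𝔪 (single S q 1) = 0 :=
    (ofQS_single_one S 𝔪 q).resolve_right h
  have : single S q x = single S q x * single S q 1 := by rw [← single_mul, mul_one]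
  rw [this, map_mul, h1, mul_zero]

/-- The structure map `ℚ_q → L_𝔪` for a place `𝔪` over `q`. -/
noncomputable def ofQqAt (𝔪 : SPlace S L) (q : S) (h : IsOver S L 𝔪 q) :
    Qq q.1 →+* LocField S 𝔪 where
  toFun x := LocField.ofQS S 𝔪 (single S q x)
  map_one' := h
  map_mul' x y := by rw [single_mul, map_mul]
  map_zero' := by rw [single_zero, map_zero]
  map_add' x y := by rw [single_add, map_add]

lemma ofQqAt_apply (𝔪 : SPlace S L) (q : S) (h : IsOver S L 𝔪 q) (x : Qq q.1) :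
    ofQqAt 𝔪 q h x = LocField.ofQS S 𝔪 (single S q x) := rfl

lemma ofQqAt_primeOf (𝔪 : SPlace S L) :
    ofQqAt 𝔪 (primeOf S L 𝔪) (isOver_primeOf 𝔪) = ofQq S L 𝔪 := rfl

lemma ofQS_eq_ofQqAt (𝔪 : SPlace S L) (q : S) (h : IsOver S L 𝔪 q) (y : QS S) :
    LocField.ofQS S 𝔪 y = ofQqAt 𝔪 q h (QS.toPi S y q) := by
  rw [ofQqAt_apply, ← mul_single_one, map_mul, h, mul_one]

/-- The composite `ℤ_q → ℚ_q → L_𝔪`. -/
noncomputable def ofZqAt (𝔪 : SPlace S L) (q : S) (h : IsOver S L 𝔪 q) :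
    ℤ_[(q.1 : ℕ)] →+* LocField S 𝔪 :=
  (ofQqAt 𝔪 q h).comp (algebraMap ℤ_[(q.1 : ℕ)] ℚ_[(q.1 : ℕ)])

lemma mem_intRing_iff (𝔪 : SPlace S L) (y : LocField S 𝔪) :
    y ∈ intRing S L 𝔪 ↔
      (ofZqAt 𝔪 (primeOf S L 𝔪) (isOver_primeOf 𝔪)).IsIntegralElem y := Iff.rfl

lemma mem_intRing_iff_of_isOver (𝔪 : SPlace S L) (q : S) (h : IsOver S L 𝔪 q)
    (y : LocField S 𝔪) :
    y ∈ intRing S L 𝔪 ↔ (ofZqAt 𝔪 q h).IsIntegralElem y := by
  obtain rfl := h.eq_primeOf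
  exact Iff.rfl

/-! ## Integrality of global integers and of `ℤ_q` -/

lemma toLoc_mem_intRing (𝔪 : SPlace S L) (x : 𝓞 L) :
    toLoc S 𝔪 (x : L) ∈ intRing S L 𝔪 := by
  rw [mem_intRing_iff]
  obtain ⟨p, hp, hpx⟩ := (NumberField.RingOfIntegers.isIntegral_coe x)
  refine ⟨p.map (Int.castRingHom ℤ_[((primeOf S L 𝔪).1 : ℕ)]), hp.map _, ?_⟩
  rw [Polynomial.eval₂_map]
  have hcomp : (ofZqAt 𝔪 (primeOf S L 𝔪) (isOver_primeOf 𝔪)).comp
      (Int.castRingHom ℤ_[((primeOf S L 𝔪).1 : ℕ)]) =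
      (toLoc S 𝔪).comp (algebraMap ℤ L) := Subsingleton.elim _ _
  rw [hcomp, ← Polynomial.hom_eval₂, hpx, map_zero]

lemma ofZqAt_mem_intRing (𝔪 : SPlace S L) (q : S) (h : IsOver S L 𝔪 q) (c : ℤ_[(q.1 : ℕ)]) :
    ofZqAt 𝔪 q h c ∈ intRing S L 𝔪 := by
  rw [mem_intRing_iff_of_isOver 𝔪 q h]
  exact RingHom.isIntegralElem_map _

lemma natCast_mem_intRing (𝔪 : SPlace S L) (n : ℕ) : (n : LocField S 𝔪) ∈ intRing S L 𝔪 :=
  natCast_mem _ n

/-- `q⁻¹` is not integral: the residue characteristic of `L_𝔪` is `q`. -/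
lemma natCast_mem_nonunits (𝔪 : SPlace S L) (q : S) (h : IsOver S L 𝔪 q) :
    ((q.1 : ℕ) : LocField S 𝔪) ∈ (intRing S L 𝔪).nonunits := by
  rw [ValuationSubring.mem_nonunits_iff_or]
  right
  intro hinv
  rw [mem_intRing_iff_of_isOver 𝔪 q h] at hinv
  letI : Algebra ℚ_[(q.1 : ℕ)] (LocField S 𝔪) := (ofQqAt 𝔪 q h).toAlgebra
  letI : Algebra ℤ_[(q.1 : ℕ)] (LocField S 𝔪) := (ofZqAt 𝔪 q h).toAlgebra
  haveI : IsScalarTower ℤ_[(q.1 : ℕ)] ℚ_[(q.1 : ℕ)] (LocField S 𝔪) :=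
    IsScalarTower.of_algebraMap_eq (fun _ => rfl)
  have h1 : IsIntegral ℤ_[(q.1 : ℕ)] (algebraMap ℚ_[(q.1 : ℕ)] (LocField S 𝔪)
      (((q.1 : ℕ) : ℚ_[(q.1 : ℕ)])⁻¹)) := by
    rw [map_inv₀, map_natCast]
    exact hinv
  have h2 : IsIntegral ℤ_[(q.1 : ℕ)] (((q.1 : ℕ) : ℚ_[(q.1 : ℕ)])⁻¹) :=
    (isIntegral_algebraMap_iff (algebraMap ℚ_[(q.1 : ℕ)] (LocField S 𝔪)).injective).1 h1
  obtain ⟨c, hc⟩ := IsIntegrallyClosed.isIntegral_iff.1 h2
  have hnorm : ‖((q.1 : ℕ) : ℚ_[(q.1 : ℕ)])⁻¹‖ ≤ 1 := by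
    rw [← hc]
    exact PadicInt.norm_le_one c
  rw [norm_inv, Padic.norm_p, inv_inv] at hnorm
  have hq1 : (1 : ℝ) < (q.1 : ℕ) := by exact_mod_cast q.1.2.one_lt
  linarith

/-! ## The map `𝓞 L → 𝓞_{L_𝔪}` and the prime below a place -/

/-- The ring homomorphism `𝓞 L → 𝓞_{L_𝔪}`. -/
noncomputable def toInt (𝔪 : SPlace S L) : 𝓞 L →+* intRing S L 𝔪 :=
  ((toLoc S 𝔪).comp (algebraMap (𝓞 L) L)).codRestrict (intRing S L 𝔪).toSubring
    (fun x => toLoc_mem_intRing 𝔪 x)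

lemma coe_toInt (𝔪 : SPlace S L) (x : 𝓞 L) :
    ((toInt 𝔪 x : intRing S L 𝔪) : LocField S 𝔪) = toLoc S 𝔪 (x : L) := rfl

variable (S L) in
/-- The prime of `𝓞 L` below the place `𝔪`. -/
noncomputable def primeBelow (𝔪 : SPlace S L) : HeightOneSpectrum (𝓞 L) where
  asIdeal := Ideal.comap (toInt 𝔪) (maximalIdeal (intRing S L 𝔪))
  isPrime := Ideal.comap_isPrime _ _
  ne_bot := by
    intro hbot
    have hq : (((primeOf S L 𝔪).1 : ℕ) : 𝓞 L) ∈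
        Ideal.comap (toInt 𝔪) (maximalIdeal (intRing S L 𝔪)) := by
      rw [Ideal.mem_comap, ← ValuationSubring.coe_mem_nonunits_iff, coe_toInt]
      have := natCast_mem_nonunits 𝔪 (primeOf S L 𝔪) (isOver_primeOf 𝔪)
      simpa using this
    rw [hbot, Ideal.mem_bot] at hq
    exact (Nat.cast_ne_zero.2 (primeOf S L 𝔪).1.2.ne_zero) hq

lemma mem_primeBelow_iff (𝔪 : SPlace S L) (x : 𝓞 L) :
    x ∈ (primeBelow S L 𝔪).asIdeal ↔ toLoc S 𝔪 (x : L) ∈ (intRing S L 𝔪).nonunits := by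
  change toInt 𝔪 x ∈ maximalIdeal (intRing S L 𝔪) ↔ _
  rw [← ValuationSubring.coe_mem_nonunits_iff, coe_toInt]

lemma natCast_mem_primeBelow (𝔪 : SPlace S L) (q : S) (h : IsOver S L 𝔪 q) :
    ((q.1 : ℕ) : 𝓞 L) ∈ (primeBelow S L 𝔪).asIdeal := by
  rw [mem_primeBelow_iff]
  have := natCast_mem_nonunits 𝔪 q h
  simpa using this

lemma isAbove_primeBelow (𝔪 : SPlace S L) : IsAbove S L (primeBelow S L 𝔪) :=
  ⟨(primeOf S L 𝔪).1, (primeOf S L 𝔪).2, natCast_mem_primeBelow 𝔪 _ (isOver_primeOf 𝔪)⟩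

/-- If `q ∈ primeBelow 𝔪` then `𝔪` lies over `q`. -/
lemma isOver_of_natCast_mem (𝔪 : SPlace S L) (q : S)
    (h : ((q.1 : ℕ) : 𝓞 L) ∈ (primeBelow S L 𝔪).asIdeal) : IsOver S L 𝔪 q := by
  by_contra hno
  have hne : q ≠ primeOf S L 𝔪 := fun he => hno (he ▸ isOver_primeOf 𝔪)
  have hne' : (q.1 : ℕ) ≠ ((primeOf S L 𝔪).1 : ℕ) := fun he =>
    hne (Subtype.ext (Subtype.ext he))
  have hcop : Nat.Coprime (q.1 : ℕ) ((primeOf S L 𝔪).1 : ℕ) :=
    (Nat.coprime_primes q.1.2 (primeOf S L 𝔪).1.2).2 hne'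
  have h2 := natCast_mem_primeBelow 𝔪 _ (isOver_primeOf 𝔪)
  have hone : (1 : 𝓞 L) ∈ (primeBelow S L 𝔪).asIdeal := by
    obtain ⟨a, b, hab⟩ := (Nat.isCoprime_iff_coprime.2 hcop)
    have key : ((a * ((q.1 : ℕ) : ℤ) + b * (((primeOf S L 𝔪).1 : ℕ) : ℤ) : ℤ) : 𝓞 L) ∈
        (primeBelow S L 𝔪).asIdeal := by
      push_cast
      exact Ideal.add_mem _ (Ideal.mul_mem_left _ _ h) (Ideal.mul_mem_left _ _ h2)
    rw [hab] at key
    simpa using key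
  exact (primeBelow S L 𝔪).isPrime.ne_top ((Ideal.eq_top_iff_one _).2 hone)

end Fermat.Agent.S55.G.PL1H713
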