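import Fermat.Agent.S55.G.PL1H713.Basic

/-!
# S55 layer G, leaf G-PL1 (helper713), part 5 : a portable description of the prime below a place

`notMem_primeBelow_iff` : a global integer `x` is outside `primeBelow 𝔪` iff `toLoc x` has an
inverse in `L_𝔪` which is integral over `ℤ_q` (for any `q` below `𝔪`).
`primeBelow_eq_of_le`, `heightOne_eq_of_le` : primes of `𝓞 L` are incomparable.
-/

set_option autoImplicit false
set_option linter.unusedSectionVars false
set_option linter.style.haveILetI false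

open scoped NumberField TensorProduct
open IsLocalRing IsDedekindDomain

namespace Fermat.Agent.S55.G.PL1H713

open Fermat.Agent.S55.G Fermat.Agent.S55.G.PL0H713 Fermat.Agent.S55.Local

variable {S : Finset Nat.Primes} {L : Type} [Field L] [NumberField L]

/-- A global integer is outside the prime below `𝔪` iff its image in `L_𝔪` has an integral
inverse. -/
lemma notMem_primeBelow_iff (𝔪 : SPlace S L) (q : S) (h : IsOver S L 𝔪 q) (x : 𝓞 L) :
    x ∉ (primeBelow S L 𝔪).asIdeal ↔
      ∃ z : LocField S 𝔪, (ofZqAt 𝔪 q h).IsIntegralElem z ∧ toLoc S 𝔪 (x : L) * z = 1 := by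
  rw [mem_primeBelow_iff, ValuationSubring.mem_nonunits_iff_or, not_or, not_not]
  constructor
  · rintro ⟨h0, hinv⟩
    exact ⟨_, (mem_intRing_iff_of_isOver 𝔪 q h _).1 hinv, mul_inv_cancel₀ h0⟩
  · rintro ⟨z, hz, hxz⟩
    have h0 : toLoc S 𝔪 (x : L) ≠ 0 := by
      intro h0
      rw [h0, zero_mul] at hxz
      exact zero_ne_one hxz
    refine ⟨h0, ?_⟩
    have hz' : z = (toLoc S 𝔪 (x : L))⁻¹ := eq_inv_of_mul_eq_one_right hxz
    rw [← hz']
    exact (mem_intRing_iff_of_isOver 𝔪 q h _).2 hz

/-- Nonzero primes of `𝓞 L` are incomparable. -/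
lemma heightOne_eq_of_le {w w' : HeightOneSpectrum (𝓞 L)} (h : w.asIdeal ≤ w'.asIdeal) :
    w = w' :=
  HeightOneSpectrum.ext (w.isMaximal.eq_of_le w'.isPrime.ne_top h)

end Fermat.Agent.S55.G.PL1H713
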