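import Fermat.Agent.S55.G.PL1H713.Val

/-!
# S55 layer G, leaf G-PL1 (helper713), part 3 : density of `L` in `L ⊗ ℚ_q`

`exists_approx` : for `a ∈ L ⊗ ℚ_S`, `q ∈ S` and `N`, there is `x ∈ L` such that at EVERY place
`𝔪` over `q` the image of `a` in `L_𝔪` is congruent to `x` modulo `q ^ N 𝓞_{L_𝔪}`.
`exists_approx_locField` : the same for a single element of a single `L_𝔪`.
-/

set_option autoImplicit false
set_option linter.unusedSectionVars false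
set_option linter.style.haveILetI false

open scoped NumberField TensorProduct
open IsLocalRing IsDedekindDomain

namespace Fermat.Agent.S55.G.PL1H713

open Fermat.Agent.S55.G Fermat.Agent.S55.G.PL0H713 Fermat.Agent.S55.Local

variable {S : Finset Nat.Primes} {L : Type} [Field L] [NumberField L]

lemma toLoc_algebraMap_rat (𝔪 : SPlace S L) (q : S) (h : IsOver S L 𝔪 q) (r : ℚ) :
    toLoc S 𝔪 (algebraMap ℚ L r) = ofQqAt 𝔪 q h (r : ℚ_[(q.1 : ℕ)]) := by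
  have hc : (toLoc S 𝔪).comp (algebraMap ℚ L) =
      (ofQqAt 𝔪 q h).comp (algebraMap ℚ ℚ_[(q.1 : ℕ)]) := Subsingleton.elim _ _
  exact congrArg (fun f => f r) hc

lemma ofQqAt_natCast (𝔪 : SPlace S L) (q : S) (h : IsOver S L 𝔪 q) (n : ℕ) :
    ofQqAt 𝔪 q h (n : ℚ_[(q.1 : ℕ)]) = (n : LocField S 𝔪) := map_natCast _ n

lemma ofQqAt_intCast (𝔪 : SPlace S L) (q : S) (h : IsOver S L 𝔪 q) (n : ℤ) :
    ofQqAt 𝔪 q h (n : ℚ_[(q.1 : ℕ)]) = (n : LocField S 𝔪) := map_intCast _ n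

/-- Approximation of a `q`-adic number by a rational number modulo `n q^N ℤ_q`. -/
lemma exists_rat_approx (p : ℕ) [Fact p.Prime] (y : ℚ_[p]) (n : ℤ) (hn : n ≠ 0) (N : ℕ) :
    ∃ (r : ℚ) (c : ℤ_[p]), y - (r : ℚ_[p]) = (n : ℚ_[p]) * (p : ℚ_[p]) ^ N * (c : ℚ_[p]) := by
  have hn' : (n : ℚ_[p]) ≠ 0 := by exact_mod_cast hn
  have hp' : (p : ℚ_[p]) ≠ 0 := by exact_mod_cast (Fact.out : p.Prime).ne_zero
  have hd : (n : ℚ_[p]) * (p : ℚ_[p]) ^ N ≠ 0 := mul_ne_zero hn' (pow_ne_zero _ hp')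
  have hε : 0 < ‖(n : ℚ_[p]) * (p : ℚ_[p]) ^ N‖ := norm_pos_iff.2 hd
  obtain ⟨r, hr⟩ := Padic.rat_dense p y hε
  have hc : ‖(y - (r : ℚ_[p])) / ((n : ℚ_[p]) * (p : ℚ_[p]) ^ N)‖ ≤ 1 := by
    rw [norm_div]
    exact (div_le_one hε).2 hr.le
  refine ⟨r, ⟨_, hc⟩, ?_⟩
  change _ = (n : ℚ_[p]) * (p : ℚ_[p]) ^ N * ((y - (r : ℚ_[p])) / ((n : ℚ_[p]) * (p : ℚ_[p]) ^ N))
  field_simp

/-- Every element of `L` is an integer divided by a nonzero rational integer. -/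
lemma exists_int_smul_eq (l : L) : ∃ (n : ℤ) (z : 𝓞 L), n ≠ 0 ∧ (n : L) * l = (z : L) := by
  have halg : IsAlgebraic ℤ l := IsFractionRing.isAlgebraic_iff ℤ ℚ L |>.mpr (.of_finite ℚ l)
  obtain ⟨n, hn, hint⟩ := halg.exists_integral_multiple
  refine ⟨n, IsIntegralClosure.mk' (𝓞 L) (n • l) hint, hn, ?_⟩
  have h := IsIntegralClosure.algebraMap_mk' (𝓞 L) (n • l) hint
  exact (zsmul_eq_mul l n).symm.trans h.symm

/-- **Density.**  Simultaneous approximation at all places over `q`. -/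
theorem exists_approx (q : S) (a : AS S L) (N : ℕ) :
    ∃ x : L, ∀ 𝔪 : SPlace S L, IsOver S L 𝔪 q →
      ∃ c ∈ intRing S L 𝔪,
        LocField.mk S 𝔪 a - toLoc S 𝔪 x = ((q.1 : ℕ) : LocField S 𝔪) ^ N * c := by
  induction a using TensorProduct.induction_on with
  | zero =>
    refine ⟨0, fun 𝔪 _ => ⟨0, zero_mem _, ?_⟩⟩
    rw [map_zero, map_zero, sub_zero, mul_zero]
  | add a b ha hb =>
    obtain ⟨x, hx⟩ := ha
    obtain ⟨y, hy⟩ := hb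
    refine ⟨x + y, fun 𝔪 h𝔪 => ?_⟩
    obtain ⟨c, hc, hxc⟩ := hx 𝔪 h𝔪
    obtain ⟨d, hd, hyd⟩ := hy 𝔪 h𝔪
    refine ⟨c + d, add_mem hc hd, ?_⟩
    rw [map_add, map_add, mul_add, ← hxc, ← hyd]
    ring
  | tmul l y =>
    obtain ⟨n, z, hn, hz⟩ := exists_int_smul_eq l
    obtain ⟨r, c, hrc⟩ := exists_rat_approx (q.1 : ℕ) (QS.toPi S y q) n hn N
    refine ⟨algebraMap ℚ L r * l, fun 𝔪 h𝔪 => ?_⟩
    refine ⟨toLoc S 𝔪 (z : L) * ofZqAt 𝔪 q h𝔪 c,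
      mul_mem (toLoc_mem_intRing 𝔪 z) (ofZqAt_mem_intRing 𝔪 q h𝔪 c), ?_⟩
    rw [mk_tmul, ofQS_eq_ofQqAt 𝔪 q h𝔪, map_mul, toLoc_algebraMap_rat 𝔪 q h𝔪]
    have h1 : toLoc S 𝔪 l * ofQqAt 𝔪 q h𝔪 (QS.toPi S y q) -
        ofQqAt 𝔪 q h𝔪 (r : ℚ_[(q.1 : ℕ)]) * toLoc S 𝔪 l =
        toLoc S 𝔪 l * ofQqAt 𝔪 q h𝔪 (QS.toPi S y q - (r : ℚ_[(q.1 : ℕ)])) := by
      rw [map_sub]; ring
    rw [h1, hrc, map_mul, map_mul, map_pow, ofQqAt_intCast, ofQqAt_natCast, ← hz, map_mul,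
      map_intCast]
    change _ = _ * (_ * ofQqAt 𝔪 q h𝔪 (c : ℚ_[(q.1 : ℕ)]))
    ring

/-- Density of `L` in a single `L_𝔪`. -/
theorem exists_approx_locField (𝔪 : SPlace S L) (y : LocField S 𝔪) (N : ℕ) :
    ∃ x : L, ∃ c ∈ intRing S L 𝔪,
      y - toLoc S 𝔪 x = (((primeOf S L 𝔪).1 : ℕ) : LocField S 𝔪) ^ N * c := by
  obtain ⟨a, rfl⟩ := LocField.mk_surjective S 𝔪 y
  obtain ⟨x, hx⟩ := exists_approx (primeOf S L 𝔪) a N
  exact ⟨x, hx 𝔪 (isOver_primeOf 𝔪)⟩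

end Fermat.Agent.S55.G.PL1H713
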