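import Fermat.Agent.S55.G.PL1H713.Char

/-!
# S55 layer G, leaf G-PL1 (helper713), part 7 : Galois equivariance of `primeBelow`

`transEquiv G g 𝔪 : L_𝔪 ≃+* L_{g𝔪}` (induced by `g ⊗ 1`), and
`primeBelow_sPlaceSMul : primeBelow (g 𝔪) = g (primeBelow 𝔪)`.
-/

set_option autoImplicit false
set_option linter.unusedSectionVars false
set_option linter.style.haveILetI false

open scoped NumberField TensorProduct
open IsLocalRing IsDedekindDomain

namespace Fermat.Agent.S55.G.PL1H713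

open Fermat.Agent.S55.G Fermat.Agent.S55.G.PL0H713 Fermat.Agent.S55.Local

variable {S : Finset Nat.Primes} {L : Type} [Field L] [NumberField L]
variable (G : Type) [Group G] [MulSemiringAction G L]

/-- The isomorphism `L_𝔪 ≃ L_{g𝔪}` induced by `g ⊗ 1`. -/
noncomputable def transEquiv (g : G) (𝔪 : SPlace S L) :
    LocField S 𝔪 ≃+* LocField S (sPlaceSMul S G g 𝔪) :=
  Ideal.quotientEquiv 𝔪.asIdeal (sPlaceSMul S G g 𝔪).asIdeal (asRingAut G S L g) rfl

lemma transEquiv_mk (g : G) (𝔪 : SPlace S L) (a : AS S L) :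
    transEquiv G g 𝔪 (LocField.mk S 𝔪 a) =
      LocField.mk S (sPlaceSMul S G g 𝔪) (asAut S G L g a) := rfl

lemma transEquiv_toLoc (g : G) (𝔪 : SPlace S L) (l : L) :
    transEquiv G g 𝔪 (toLoc S 𝔪 l) = toLoc S (sPlaceSMul S G g 𝔪) (g • l) := by
  change transEquiv G g 𝔪 (LocField.mk S 𝔪 (asDiag S L l)) = LocField.mk S _ (asDiag S L _)
  rw [transEquiv_mk, asAut_asDiag]

lemma transEquiv_ofQS (g : G) (𝔪 : SPlace S L) (y : QS S) :
    transEquiv G g 𝔪 (LocField.ofQS S 𝔪 y) = LocField.ofQS S (sPlaceSMul S G g 𝔪) y := by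
  change transEquiv G g 𝔪 (LocField.mk S 𝔪 (asIncl S L y)) = LocField.mk S _ (asIncl S L y)
  rw [transEquiv_mk, asAut_asIncl]

lemma isOver_sPlaceSMul (g : G) {𝔪 : SPlace S L} {q : S} (h : IsOver S L 𝔪 q) :
    IsOver S L (sPlaceSMul S G g 𝔪) q := by
  unfold IsOver
  rw [← transEquiv_ofQS, h, map_one]

lemma transEquiv_comp_ofZqAt (g : G) (𝔪 : SPlace S L) (q : S) (h : IsOver S L 𝔪 q) :
    ((transEquiv G g 𝔪 : LocField S 𝔪 →+* LocField S (sPlaceSMul S G g 𝔪)).comp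
      (ofZqAt 𝔪 q h)) = ofZqAt (sPlaceSMul S G g 𝔪) q (isOver_sPlaceSMul G g h) :=
  RingHom.ext fun _ => transEquiv_ofQS G g 𝔪 _

/-- **Equivariance.**  The prime below `g 𝔪` is `g` applied to the prime below `𝔪`. -/
theorem primeBelow_sPlaceSMul (g : G) (𝔪 : SPlace S L) :
    primeBelow S L (sPlaceSMul S G g 𝔪) = primeSMul G g (primeBelow S L 𝔪) := by
  apply heightOne_eq_of_le
  intro x hx
  by_contra hx'
  rw [mem_primeSMul_iff,
    notMem_primeBelow_iff 𝔪 (primeOf S L 𝔪) (isOver_primeOf 𝔪)] at hx'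
  obtain ⟨z, ⟨P, hPm, hP⟩, hxz⟩ := hx'
  refine (notMem_primeBelow_iff _ (primeOf S L 𝔪) (isOver_sPlaceSMul G g (isOver_primeOf 𝔪)) x).2
    ⟨transEquiv G g 𝔪 z, ⟨P, hPm, ?_⟩, ?_⟩ hx
  · have h1 := Polynomial.hom_eval₂ P (ofZqAt 𝔪 (primeOf S L 𝔪) (isOver_primeOf 𝔪))
      (transEquiv G g 𝔪 : LocField S 𝔪 →+* LocField S (sPlaceSMul S G g 𝔪)) z
    rw [hP, map_zero, transEquiv_comp_ofZqAt] at h1
    exact h1.symm
  · have h2 := congrArg (transEquiv G g 𝔪) hxz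
    rw [map_mul, map_one, transEquiv_toLoc] at h2
    have h3 : g • (((g⁻¹ • x : 𝓞 L) : 𝓞 L) : L) = (x : L) := by
      change g • (g⁻¹ • (x : L)) = (x : L)
      rw [smul_inv_smul]
    rw [h3] at h2
    exact h2

end Fermat.Agent.S55.G.PL1H713
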