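import Fermat.Agent.S55.G.PL1H713.Dense

/-!
# S55 layer G, leaf G-PL1 (helper713), part 4 : `primeBelow` is injective
-/

set_option autoImplicit false
set_option linter.unusedSectionVars false
set_option linter.style.haveILetI false

open scoped NumberField TensorProduct
open IsLocalRing IsDedekindDomain

namespace Fermat.Agent.S55.G.PL1H713

open Fermat.Agent.S55.G Fermat.Agent.S55.G.PL0H713 Fermat.Agent.S55.Local

variable {S : Finset Nat.Primes} {L : Type} [Field L] [NumberField L]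

lemma natCast_pow_mul_mem_nonunits (𝔪 : SPlace S L) (q : S) (h : IsOver S L 𝔪 q)
    {c : LocField S 𝔪} (hc : c ∈ intRing S L 𝔪) :
    ((q.1 : ℕ) : LocField S 𝔪) ^ 1 * c ∈ (intRing S L 𝔪).nonunits := by
  have hq := natCast_mem_nonunits 𝔪 q h
  rw [ValuationSubring.mem_nonunits_iff] at hq ⊢
  rw [pow_one, map_mul]
  have hc' : (intRing S L 𝔪).valuation c ≤ 1 := ((intRing S L 𝔪).valuation_le_one_iff c).2 hc
  calc (intRing S L 𝔪).valuation ((q.1 : ℕ) : LocField S 𝔪) * (intRing S L 𝔪).valuation c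
      ≤ (intRing S L 𝔪).valuation ((q.1 : ℕ) : LocField S 𝔪) * 1 := by gcongr
    _ < 1 := by rw [mul_one]; exact hq

/-- `1 + nonunit` is not a nonunit. -/
lemma one_sub_notMem_nonunits {E : Type*} [Field E] (O : ValuationSubring E) {t : E}
    (ht : t ∈ O.nonunits) : 1 - t ∉ O.nonunits := by
  intro h
  have : (1 : E) ∈ O.nonunits := by
    have := add_mem_nonunits_aux O h ht
    simpa using this
  rw [ValuationSubring.mem_nonunits_iff, map_one] at this
  exact lt_irrefl _ this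
where
  add_mem_nonunits_aux (O : ValuationSubring E) {a b : E} (ha : a ∈ O.nonunits)
      (hb : b ∈ O.nonunits) : a + b ∈ O.nonunits := by
    rw [ValuationSubring.mem_nonunits_iff] at ha hb ⊢
    exact lt_of_le_of_lt (O.valuation.map_add a b) (max_lt ha hb)

/-- **Injectivity.**  A place is determined by the prime below it. -/
theorem primeBelow_injective : Function.Injective (primeBelow S L) := by
  intro 𝔪 𝔪' hw
  by_contra hne
  have hne' : 𝔪.asIdeal ≠ 𝔪'.asIdeal := fun h => hne (MaximalSpectrum.ext h)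
  -- both places lie over the same rational prime
  have hq : IsOver S L 𝔪 (primeOf S L 𝔪) := isOver_primeOf 𝔪
  have hq' : IsOver S L 𝔪' (primeOf S L 𝔪) := by
    apply isOver_of_natCast_mem
    rw [← hw]
    exact natCast_mem_primeBelow 𝔪 _ hq
  -- CRT
  haveI := 𝔪.isMaximal
  haveI := 𝔪'.isMaximal
  have hcop : IsCoprime 𝔪.asIdeal 𝔪'.asIdeal := Ideal.isCoprime_of_isMaximal hne'
  obtain ⟨a, ha, b, hb, hab⟩ := Ideal.isCoprime_iff_exists.1 hcop
  -- approximate `a`
  obtain ⟨x, hx⟩ := exists_approx (primeOf S L 𝔪) a 1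
  obtain ⟨c, hc, hxc⟩ := hx 𝔪 hq
  obtain ⟨c', hc', hxc'⟩ := hx 𝔪' hq'
  have h1 : LocField.mk S 𝔪 a = 0 := (LocField.mk_eq_zero_iff S 𝔪 a).2 ha
  have h2 : LocField.mk S 𝔪' a = 1 := by
    have hb0 : LocField.mk S 𝔪' b = 0 := (LocField.mk_eq_zero_iff S 𝔪' b).2 hb
    have := congrArg (LocField.mk S 𝔪') hab
    rw [map_add, hb0, add_zero, map_one] at this
    exact this
  -- at `𝔪`, `x` is a nonunit
  have hx1 : toLoc S 𝔪 x ∈ (intRing S L 𝔪).nonunits := by
    have : toLoc S 𝔪 x = -((((primeOf S L 𝔪).1 : ℕ) : LocField S 𝔪) ^ 1 * c) := by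
      rw [← hxc, h1, zero_sub, neg_neg]
    rw [this]
    have hmem := natCast_pow_mul_mem_nonunits 𝔪 _ hq hc
    rw [ValuationSubring.mem_nonunits_iff] at hmem ⊢
    rwa [Valuation.map_neg]
  -- at `𝔪'`, `x` is a unit
  have hx2 : toLoc S 𝔪' x ∉ (intRing S L 𝔪').nonunits := by
    have : toLoc S 𝔪' x = 1 - (((primeOf S L 𝔪).1 : ℕ) : LocField S 𝔪') ^ 1 * c' := by
      rw [← hxc', h2]; ring
    rw [this]
    exact one_sub_notMem_nonunits _ (natCast_pow_mul_mem_nonunits 𝔪' _ hq' hc')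
  exact hx2 ((toLoc_mem_nonunits_iff_of_eq hw x).1 hx1)

end Fermat.Agent.S55.G.PL1H713
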