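import Fermat.Agent.S55.G.PL1H713.Char
import Fermat.Agent.S55.G.Places177.Surj

/-!
# S55 layer G, leaf G-PL1 (helper713), part 6 : every prime above `S` is the prime below a place

Bridge from the single-prime model `ℚ_q ⊗ L` of `Places177` (helper177) to the places of
`L ⊗ ℚ_S`: a maximal ideal `𝔪'` of `ℚ_q ⊗ L` (`q ∈ S`) gives the place
`placeOfMax q 𝔪' = ker (L ⊗ ℚ_S → F_𝔪')`, with `primeBelow (placeOfMax q 𝔪') = placeOf 𝔪'`.
Hence `primeBelow_surjective`.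
-/

set_option autoImplicit false
set_option linter.unusedSectionVars false
set_option linter.style.haveILetI false

open scoped NumberField TensorProduct Fermat.Agent.S55.G.Places177
open IsLocalRing IsDedekindDomain

namespace Fermat.Agent.S55.G.PL1H713

open Fermat.Agent.S55.G Fermat.Agent.S55.G.PL0H713 Fermat.Agent.S55.Local
open Fermat.Agent.S55.G.Places177 (BQ FQ toFQ placeOf mem_placeOf_iff exists_placeOf_eq)

variable {S : Finset Nat.Primes} {L : Type} [Field L] [NumberField L]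

section Bridge

variable (q : S) (𝔪' : MaximalSpectrum (BQ (q.1 : ℕ) L))

/-- `ℚ_q → F_𝔪'`. -/
noncomputable def baseMap : Qq q.1 →+* FQ (q.1 : ℕ) L 𝔪' :=
  algebraMap ℚ_[(q.1 : ℕ)] (FQ (q.1 : ℕ) L 𝔪')

lemma baseMap_apply (c : Qq q.1) :
    baseMap q 𝔪' c = Places177.FQ.mk 𝔪' (c ⊗ₜ[ℚ] (1 : L)) := rfl

/-- The projection `L ⊗ ℚ_S → F_𝔪'`. -/
noncomputable def bridgeHom : AS S L →ₐ[ℚ] FQ (q.1 : ℕ) L 𝔪' :=
  Algebra.TensorProduct.lift (toFQ 𝔪').toRatAlgHom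
    ((baseMap q 𝔪').comp (QS.proj S q : QS S →+* Qq q.1)).toRatAlgHom
    (fun _ _ => Commute.all _ _)

lemma bridgeHom_tmul (l : L) (y : QS S) :
    bridgeHom q 𝔪' (l ⊗ₜ[ℚ] y) = toFQ 𝔪' l * baseMap q 𝔪' (QS.toPi S y q) := by
  rw [bridgeHom, Algebra.TensorProduct.lift_tmul]
  rfl

lemma bridgeHom_surjective : Function.Surjective (bridgeHom (S := S) q 𝔪') := by
  intro z
  obtain ⟨b, rfl⟩ := Places177.FQ.mk_surjective 𝔪' z
  induction b using TensorProduct.induction_on with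
  | zero => exact ⟨0, by rw [map_zero, map_zero]⟩
  | tmul c l =>
    refine ⟨l ⊗ₜ[ℚ] single S q c, ?_⟩
    rw [bridgeHom_tmul, single_apply_same, baseMap_apply]
    change Places177.FQ.mk 𝔪' ((1 : ℚ_[(q.1 : ℕ)]) ⊗ₜ[ℚ] l) * _ = _
    rw [← map_mul, Algebra.TensorProduct.tmul_mul_tmul, one_mul, mul_one]
  | add a b ha hb =>
    obtain ⟨a', ha'⟩ := ha
    obtain ⟨b', hb'⟩ := hb
    exact ⟨a' + b', by rw [map_add, map_add, ha', hb']⟩

/-- The place of `L ⊗ ℚ_S` attached to a maximal ideal of `ℚ_q ⊗ L`, `q ∈ S`. -/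
noncomputable def placeOfMax : SPlace S L where
  asIdeal := RingHom.ker (bridgeHom (S := S) q 𝔪' : AS S L →+* FQ (q.1 : ℕ) L 𝔪')
  isMaximal := RingHom.ker_isMaximal_of_surjective _ (bridgeHom_surjective q 𝔪')

/-- `L_𝔪 ≃ F_𝔪'` for `𝔪 = placeOfMax q 𝔪'`. -/
noncomputable def bridgeEquiv : LocField S (placeOfMax (S := S) q 𝔪') ≃+* FQ (q.1 : ℕ) L 𝔪' :=
  RingHom.quotientKerEquivOfSurjective
    (f := (bridgeHom (S := S) q 𝔪' : AS S L →+* FQ (q.1 : ℕ) L 𝔪')) (bridgeHom_surjective q 𝔪')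

lemma bridgeEquiv_mk (a : AS S L) :
    bridgeEquiv q 𝔪' (LocField.mk S (placeOfMax (S := S) q 𝔪') a) = bridgeHom q 𝔪' a := rfl

lemma bridgeEquiv_toLoc (l : L) :
    bridgeEquiv q 𝔪' (toLoc S (placeOfMax (S := S) q 𝔪') l) = toFQ 𝔪' l := by
  change bridgeEquiv q 𝔪' (LocField.mk S _ (l ⊗ₜ[ℚ] (1 : QS S))) = _
  rw [bridgeEquiv_mk, bridgeHom_tmul, map_one, Pi.one_apply, map_one, mul_one]

lemma bridgeEquiv_ofQS (y : QS S) :
    bridgeEquiv q 𝔪' (LocField.ofQS S (placeOfMax (S := S) q 𝔪') y) =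
      baseMap q 𝔪' (QS.toPi S y q) := by
  change bridgeEquiv q 𝔪' (LocField.mk S _ ((1 : L) ⊗ₜ[ℚ] y)) = _
  rw [bridgeEquiv_mk, bridgeHom_tmul, map_one, one_mul]

lemma isOver_placeOfMax : IsOver S L (placeOfMax (S := S) q 𝔪') q := by
  apply (bridgeEquiv q 𝔪').injective
  rw [bridgeEquiv_ofQS, single_apply_same, map_one, map_one]

lemma bridgeEquiv_ofZqAt (c : ℤ_[(q.1 : ℕ)]) :
    bridgeEquiv q 𝔪' (ofZqAt (placeOfMax (S := S) q 𝔪') q (isOver_placeOfMax q 𝔪') c) =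
      algebraMap ℤ_[(q.1 : ℕ)] (FQ (q.1 : ℕ) L 𝔪') c := by
  change bridgeEquiv q 𝔪' (LocField.ofQS S _ (single S q _)) = _
  rw [bridgeEquiv_ofQS, single_apply_same]
  rfl

lemma bridgeEquiv_symm_comp :
    (((bridgeEquiv q 𝔪').symm : FQ (q.1 : ℕ) L 𝔪' →+* LocField S (placeOfMax (S := S) q 𝔪')).comp
      (algebraMap ℤ_[(q.1 : ℕ)] (FQ (q.1 : ℕ) L 𝔪'))) =
      ofZqAt (placeOfMax (S := S) q 𝔪') q (isOver_placeOfMax q 𝔪') := by
  refine RingHom.ext fun c => ?_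
  apply (bridgeEquiv q 𝔪').injective
  rw [bridgeEquiv_ofZqAt]
  exact (bridgeEquiv q 𝔪').apply_symm_apply _

/-- The prime below `placeOfMax q 𝔪'` is `placeOf 𝔪'`. -/
theorem primeBelow_placeOfMax :
    primeBelow S L (placeOfMax (S := S) q 𝔪') = placeOf 𝔪' := by
  apply heightOne_eq_of_le
  intro x hx
  by_contra hx'
  rw [mem_placeOf_iff, not_not] at hx'
  obtain ⟨z, ⟨P, hPm, hP⟩, hxz⟩ := hx'
  refine (notMem_primeBelow_iff _ q (isOver_placeOfMax q 𝔪') x).2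
    ⟨(bridgeEquiv q 𝔪').symm z, ⟨P, hPm, ?_⟩, ?_⟩ hx
  · have h1 := Polynomial.hom_eval₂ P (algebraMap ℤ_[(q.1 : ℕ)] (FQ (q.1 : ℕ) L 𝔪'))
      ((bridgeEquiv q 𝔪').symm : FQ (q.1 : ℕ) L 𝔪' →+* LocField S (placeOfMax (S := S) q 𝔪')) z
    rw [hP, map_zero, bridgeEquiv_symm_comp] at h1
    exact h1.symm
  · apply (bridgeEquiv q 𝔪').injective
    rw [map_mul, RingEquiv.apply_symm_apply, bridgeEquiv_toLoc, map_one]
    exact hxz

end Bridge

/-- **Surjectivity.**  Every prime of `L` above `S` is the prime below a place of `L ⊗ ℚ_S`. -/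
theorem primeBelow_surjective (w : HeightOneSpectrum (𝓞 L)) (hw : IsAbove S L w) :
    ∃ 𝔪 : SPlace S L, primeBelow S L 𝔪 = w := by
  obtain ⟨q₀, hqS, hq⟩ := hw
  let q : S := ⟨q₀, hqS⟩
  have hq' : (((q.1 : ℕ) : ℕ) : 𝓞 L) ∈ w.asIdeal := hq
  obtain ⟨𝔪', h𝔪'⟩ : ∃ 𝔪' : MaximalSpectrum (BQ (q.1 : ℕ) L), placeOf 𝔪' = w :=
    exists_placeOf_eq w hq'
  exact ⟨placeOfMax q 𝔪', (primeBelow_placeOfMax q 𝔪').trans h𝔪'⟩

end Fermat.Agent.S55.G.PL1H713
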