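import Fermat.Agent.S55.G.PL1H713.Inj
import Fermat.Agent.S55.G.PL1H713.Surj
import Fermat.Agent.S55.G.PL1H713.Equiv
import Fermat.Agent.S55.G.Spec
import Fermat.Agent.S55.L.RingOfIntegersUnique775

/-!
# S55 layer G, leaf G-PL1 (helper713) : `placePrime : PlacePrimeSpec`

The places of `L ⊗ ℚ_S` are the primes of `𝓞 L` above `S`, via `𝔪 ↦ primeBelow S L 𝔪`
(`placeEquivPrime`), Galois-equivariantly and compatibly with every ring of integers of `L_𝔪`.

API for consumers (all in `Fermat.Agent.S55.G.PL1H713`):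
* `primeBelow S L 𝔪`, `mem_primeBelow_iff`, `notMem_primeBelow_iff`, `isAbove_primeBelow`;
* `primeBelow_injective`, `primeBelow_surjective`, `primeBelow_sPlaceSMul`;
* `toLoc_mem_intRing_iff`, `toLoc_mem_nonunits_iff` (valuation ring of `L` cut out by `𝔪`);
* `exists_approx` (simultaneous approximation at the places over `q`);
* `eq_intRing` (uniqueness of the ring of integers of `L_𝔪`).
-/

set_option autoImplicit false
set_option linter.unusedSectionVars false
set_option linter.style.haveILetI false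

open scoped NumberField TensorProduct
open IsLocalRing IsDedekindDomain

namespace Fermat.Agent.S55.G.PL1H713

open Fermat.Agent.S55.G Fermat.Agent.S55.G.PL0H713 Fermat.Agent.S55.Local

variable {S : Finset Nat.Primes} {L : Type} [Field L] [NumberField L]

/-- Every ring of integers of `L_𝔪` is `intRing S L 𝔪`. -/
lemma eq_intRing (𝔪 : SPlace S L) (A : ValuationSubring (LocField S 𝔪))
    (hA : Fermat.Agent.S55.L.IsLocalRingOfIntegers A) : A = intRing S L 𝔪 :=
  haveI := isLocalFld_locField S L 𝔪
  Fermat.Agent.S55.L.ringOfIntegersUnique775 _ A _ hA (isLocalRingOfIntegers_intRing S L 𝔪)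

variable (S L) in
/-- The bijection between the places of `L ⊗ ℚ_S` and the primes of `𝓞 L` above `S`. -/
noncomputable def placeEquivPrime : SPlace S L ≃ PrimeIn S L :=
  Equiv.ofBijective
    (fun 𝔪 => (⟨primeBelow S L 𝔪, isAbove_primeBelow 𝔪⟩ : PrimeIn S L))
    ⟨fun _ _ h => primeBelow_injective (congrArg Subtype.val h), fun w => by
      obtain ⟨𝔪, h⟩ := primeBelow_surjective w.1 w.2
      exact ⟨𝔪, Subtype.ext h⟩⟩

lemma placeEquivPrime_apply (𝔪 : SPlace S L) :
    (placeEquivPrime S L 𝔪).1 = primeBelow S L 𝔪 := rfl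

/-- **G-PL1.** -/
theorem placePrime : PlacePrimeSpec := by
  intro S L _ _
  refine ⟨placeEquivPrime S L, ?_, ?_⟩
  · intro G _ _ g 𝔪
    exact primeBelow_sPlaceSMul G g 𝔪
  · intro 𝔪 A hA x
    rw [eq_intRing 𝔪 A hA]
    exact mem_primeBelow_iff 𝔪 x

end Fermat.Agent.S55.G.PL1H713
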