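import Fermat.Agent.S55.G.PL1H713.Basic

/-!
# S55 layer G, leaf G-PL1 (helper713), part 2 : the valuation ring of `L` cut out by a place

For a place `𝔪` with prime below `w = primeBelow 𝔪`:
`toLoc x ∈ 𝓞_{L_𝔪} ↔ w.valuation x ≤ 1` and `toLoc x ∈ nonunits ↔ w.valuation x < 1`
(`toLoc_mem_intRing_iff`, `toLoc_mem_nonunits_iff`).
-/

set_option autoImplicit false
set_option linter.unusedSectionVars false
set_option linter.style.haveILetI false

open scoped NumberField TensorProduct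
open IsLocalRing IsDedekindDomain

namespace Fermat.Agent.S55.G.PL1H713

open Fermat.Agent.S55.G Fermat.Agent.S55.G.PL0H713 Fermat.Agent.S55.Local

variable {S : Finset Nat.Primes} {L : Type} [Field L] [NumberField L]

lemma toLoc_ne_zero (𝔪 : SPlace S L) {x : L} (hx : x ≠ 0) : toLoc S 𝔪 x ≠ 0 :=
  (map_ne_zero (toLoc S 𝔪)).2 hx

/-- An integer outside the prime below `𝔪` is a unit of `𝓞_{L_𝔪}`. -/
lemma inv_toLoc_mem_of_notMem (𝔪 : SPlace S L) {d : 𝓞 L}
    (hd : d ∉ (primeBelow S L 𝔪).asIdeal) : (toLoc S 𝔪 (d : L))⁻¹ ∈ intRing S L 𝔪 := by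
  rw [mem_primeBelow_iff, ValuationSubring.mem_nonunits_iff_or, not_or, not_not] at hd
  exact hd.2

lemma toLoc_mem_of_valuation_le_one (𝔪 : SPlace S L) {x : L}
    (hx : (primeBelow S L 𝔪).valuation L x ≤ 1) : toLoc S 𝔪 x ∈ intRing S L 𝔪 := by
  obtain ⟨n, d, hnd⟩ := (primeBelow S L 𝔪).exists_primeCompl_mul_eq_of_integer x hx
  have hd : (d : 𝓞 L) ∉ (primeBelow S L 𝔪).asIdeal := d.2
  have hd0 : toLoc S 𝔪 ((d : 𝓞 L) : L) ≠ 0 := by
    apply toLoc_ne_zero
    intro h0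
    apply hd
    have : (d : 𝓞 L) = 0 := by exact_mod_cast h0
    rw [this]
    exact Ideal.zero_mem _
  have h1 : toLoc S 𝔪 x = toLoc S 𝔪 (n : L) * (toLoc S 𝔪 ((d : 𝓞 L) : L))⁻¹ := by
    rw [eq_mul_inv_iff_mul_eq₀ hd0, ← map_mul]
    exact congrArg _ hnd
  rw [h1]
  exact mul_mem (toLoc_mem_intRing 𝔪 n) (inv_toLoc_mem_of_notMem 𝔪 hd)

lemma toLoc_mem_nonunits_of_valuation_lt_one (𝔪 : SPlace S L) {x : L}
    (hx : (primeBelow S L 𝔪).valuation L x < 1) : toLoc S 𝔪 x ∈ (intRing S L 𝔪).nonunits := by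
  obtain ⟨n, d, hnd⟩ := (primeBelow S L 𝔪).exists_primeCompl_mul_eq_of_integer x hx.le
  have hd : (d : 𝓞 L) ∉ (primeBelow S L 𝔪).asIdeal := d.2
  have hd0 : toLoc S 𝔪 ((d : 𝓞 L) : L) ≠ 0 := by
    apply toLoc_ne_zero
    intro h0
    apply hd
    have : (d : 𝓞 L) = 0 := by exact_mod_cast h0
    rw [this]
    exact Ideal.zero_mem _
  have hn : n ∈ (primeBelow S L 𝔪).asIdeal := by
    have hdv : (primeBelow S L 𝔪).valuation L (algebraMap (𝓞 L) L (d : 𝓞 L)) = 1 :=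
      (HeightOneSpectrum.valuation_eq_one_iff_notMem (K := L) _).2 hd
    have hnv : (primeBelow S L 𝔪).valuation L (algebraMap (𝓞 L) L n) < 1 := by
      rw [← hnd, map_mul, hdv, mul_one]
      exact hx
    exact (HeightOneSpectrum.valuation_lt_one_iff_mem (K := L) _ _).1 hnv
  have h1 : toLoc S 𝔪 x = toLoc S 𝔪 (n : L) * (toLoc S 𝔪 ((d : 𝓞 L) : L))⁻¹ := by
    rw [eq_mul_inv_iff_mul_eq₀ hd0, ← map_mul]
    exact congrArg _ hnd
  rw [h1]
  have hn' := (mem_primeBelow_iff 𝔪 n).1 hn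
  rw [ValuationSubring.mem_nonunits_iff] at hn' ⊢
  rw [map_mul]
  have h2 : (intRing S L 𝔪).valuation (toLoc S 𝔪 ((d : 𝓞 L) : L))⁻¹ ≤ 1 :=
    ((intRing S L 𝔪).valuation_le_one_iff _).2 (inv_toLoc_mem_of_notMem 𝔪 hd)
  calc (intRing S L 𝔪).valuation (toLoc S 𝔪 (n : L)) *
      (intRing S L 𝔪).valuation (toLoc S 𝔪 ((d : 𝓞 L) : L))⁻¹
      ≤ (intRing S L 𝔪).valuation (toLoc S 𝔪 (n : L)) * 1 := by gcongr
    _ < 1 := by rw [mul_one]; exact hn'

/-- **The valuation ring of `L` cut out by `𝔪` is the one of the prime below `𝔪`.** -/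
theorem toLoc_mem_intRing_iff (𝔪 : SPlace S L) (x : L) :
    toLoc S 𝔪 x ∈ intRing S L 𝔪 ↔ (primeBelow S L 𝔪).valuation L x ≤ 1 := by
  constructor
  · intro hx
    by_contra hv
    rw [not_le] at hv
    have hx0 : x ≠ 0 := by
      rintro rfl
      rw [map_zero] at hv
      exact not_lt.2 zero_le_one hv
    have hinv : (primeBelow S L 𝔪).valuation L x⁻¹ < 1 := by
      rw [map_inv₀]
      exact (inv_lt_one₀ (lt_trans zero_lt_one hv)).2 hv
    have := toLoc_mem_nonunits_of_valuation_lt_one 𝔪 hinv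
    rw [map_inv₀, ValuationSubring.inv_mem_nonunits_iff] at this
    rcases this with h0 | h0
    · exact toLoc_ne_zero 𝔪 hx0 h0
    · exact h0 hx
  · exact toLoc_mem_of_valuation_le_one 𝔪

theorem toLoc_mem_nonunits_iff (𝔪 : SPlace S L) (x : L) :
    toLoc S 𝔪 x ∈ (intRing S L 𝔪).nonunits ↔ (primeBelow S L 𝔪).valuation L x < 1 := by
  constructor
  · intro hx
    rcases eq_or_ne x 0 with rfl | hx0
    · rw [map_zero]; exact zero_lt_one
    rw [ValuationSubring.mem_nonunits_iff_or] at hx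
    rcases hx with h0 | h0
    · exact absurd h0 (toLoc_ne_zero 𝔪 hx0)
    · rw [← map_inv₀, toLoc_mem_intRing_iff, not_le, map_inv₀] at h0
      by_contra hge
      rw [not_lt] at hge
      have : ((primeBelow S L 𝔪).valuation L x)⁻¹ ≤ 1 := inv_le_one_of_one_le₀ hge
      exact not_lt.2 this h0
  · exact toLoc_mem_nonunits_of_valuation_lt_one 𝔪

/-- A place is determined, among the places with the same prime below, by... its prime:
the valuation subring `toLoc⁻¹(𝓞_{L_𝔪})` of `L` only depends on `primeBelow 𝔪`. -/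
lemma toLoc_mem_nonunits_iff_of_eq {𝔪 𝔪' : SPlace S L}
    (h : primeBelow S L 𝔪 = primeBelow S L 𝔪') (x : L) :
    toLoc S 𝔪 x ∈ (intRing S L 𝔪).nonunits ↔ toLoc S 𝔪' x ∈ (intRing S L 𝔪').nonunits := by
  rw [toLoc_mem_nonunits_iff, toLoc_mem_nonunits_iff, h]

end Fermat.Agent.S55.G.PL1H713
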